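import Mathlib
import Fermat.Agent.FF.Core.Lattice
import Fermat.Agent.FF.Core.Eff
import Fermat.Agent.FF.KMField

/-!
# Program TT (S33), origin-C5a: divisors and graph coordinates at the origin class

Owner: helper1.  Namespace `Fermat.Agent.TT`, prefix `ttco`.

The closed fibre is ABSTRACT: it enters only through `k`-subspaces `Uk ≤ k^ι` of coordinate spaces
(`k` the residue field of the valuation ring `A ⊂ K`).  No function field, no curve on the closed
fibre.  Built on the linear algebra of `FF/Core/Graph.lean` and `FF/Core/Lattice.lean`.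

* `ttco_lattice`      : `U = {v | ∑ v i • b i ∈ L(Y)}` of dimension `dim Uk`, integral vectors of `U`
  reduce into `Uk`, `J` a chart of `Uk` ⟹ `U = graph J Z`, `Z` over `A`, `Uk = graph J (res Z)`;
* `ttco_lattice_smul` : equivariance under a semilinear automorphism fixing the basis;
* `ttco_fixed`        : a `Gam`-stable divisor has a `Gam`-fixed graph matrix;
* `TtcoData`, `ttco_main` : for a finite subgroup `X ≤ Pic0 K F` (the Kummer subgroup `Γ0`), a
  base divisor `D0` and ONE closed subspace `Uk`: the effective `D γ ∈ |γ + D0|` (unique,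
  equivariant, additive), one chart `J` of `Uk`, and the graph coordinates `Z γ` of `L(𝔡 - D γ)`,
  all reducing to the SAME graph `Uk` (connectedness), equivariant and injective.
-/

set_option autoImplicit false
set_option linter.unusedSectionVars false
set_option linter.unusedVariables false
set_option linter.style.haveILetI false

noncomputable section

namespace Fermat.Agent.TT

open AlgebraicCurve IsLocalRing Module Fermat.Agent.V.RR Fermat.Agent.FF

variable {K : Type*} [Field K] (A : ValuationSubring K)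
variable {F : Type*} [Field F] [Algebra K F] {g : ℕ}

section Lattice

variable {ι : Type*} [Fintype ι] [DecidableEq ι] {b : ι → F}

/-- **graph coordinates against an abstract closed fibre.** -/
theorem ttco_lattice {Y : Divisor K F}
    (Uk : Submodule (ResidueField A) (ι → ResidueField A))
    (hdim : finrank K (ffcdCoord K b Y) = finrank (ResidueField A) Uk)
    (hred : ∀ v : ι → A, (∑ i, ((v i : A) : K) • b i) ∈ riemannRochSpace Y →
      (fun i => residue A (v i)) ∈ Uk)
    (J : Finset ι) (hJcard : J.card = finrank (ResidueField A) Uk)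
    (hJsep : ∀ w ∈ Uk, (∀ j ∈ J, w j = 0) → w = 0) :
    ∃ Z : ι → ι → A, FfcdNorm J Z ∧
      ffcdCoord K b Y = ffcdGraph J (fun j i => ((Z j i : A) : K)) ∧
      Uk = ffcdGraph J (fun j i => residue A (Z j i)) := by
  refine ffcd_chart A (residue A) (fun a => residue_eq_zero_iff a) _ _ J (by rw [hdim, hJcard]) ?_
    hJsep
  intro v hv hvA
  rw [ffcd_mem_coord] at hv
  exact hred (fun i => ⟨v i, hvA i⟩) hv

/-- **equivariance of the graph coordinates.** -/
theorem ttco_lattice_smul {σ : SemilinearAut K F} (hb : ∀ i, σ • b i = b i)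
    {Y : Divisor K F} {J : Finset ι} {Z Z' : ι → ι → A}
    (hZ : FfcdNorm J Z) (hZ' : FfcdNorm J Z')
    (h : ffcdCoord K b Y = ffcdGraph J (fun j i => ((Z j i : A) : K)))
    (h' : ffcdCoord K b (σ • Y) = ffcdGraph J (fun j i => ((Z' j i : A) : K))) :
    ∀ j i, ((Z' j i : A) : K) = SemilinearAut.baseAut σ ((Z j i : A) : K) := by
  intro j i
  by_cases hji : j ∉ J ∨ i ∈ J
  · rw [hZ j i hji, hZ' j i hji]
    simp
  · push Not at hji
    obtain ⟨hj, hi⟩ := hji
    have hvec : ffcdVec J (fun j i => ((Z j i : A) : K)) j ∈ ffcdCoord K b Y := by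
      rw [h]
      exact ffcdVec_mem J _ hj
    have hmem := ffcd_coord_smul σ hb hvec
    rw [h'] at hmem
    have hi' : SemilinearAut.baseAut σ (ffcdVec J (fun j i => ((Z j i : A) : K)) j i) =
        ∑ j' ∈ J, ((Z' j' i : A) : K) *
          SemilinearAut.baseAut σ (ffcdVec J (fun j i => ((Z j i : A) : K)) j j') := hmem i hi
    rw [ffcdVec_apply_notMem _ j hi, Finset.sum_eq_single j] at hi'
    · rw [ffcdVec_apply_mem _ j hj, if_pos rfl, map_one, mul_one] at hi'
      exact hi'.symm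
    · intro j' hj' hne
      rw [ffcdVec_apply_mem _ j hj', if_neg hne, map_zero, mul_zero]
    · intro hnot
      exact absurd hj hnot

/-- **a fixed lattice**: a `Gam`-stable divisor has graph coordinates with `Gam`-fixed entries,
in a chart of the given closed subspace. -/
theorem ttco_fixed {Gam : Subgroup (SemilinearAut K F)} {𝔡 : Divisor K F}
    (hspan : Submodule.span K (Set.range b) = riemannRochSpace 𝔡)
    (hbfix : ∀ σ ∈ Gam, ∀ i, σ • b i = b i) (h𝔡fix : ∀ σ ∈ Gam, σ • 𝔡 = 𝔡)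
    {D' : Divisor K F} (hD' : 0 ≤ D') (hfix : ∀ σ ∈ Gam, σ • D' = D')
    (Uk : Submodule (ResidueField A) (ι → ResidueField A))
    (hdim : finrank K (ffcdCoord K b (𝔡 - D')) = finrank (ResidueField A) Uk)
    (hred : ∀ v : ι → A, (∑ i, ((v i : A) : K) • b i) ∈ riemannRochSpace (𝔡 - D') →
      (fun i => residue A (v i)) ∈ Uk) :
    ∃ (J : Finset ι) (Z : ι → ι → A), FfcdNorm J Z ∧
      J.card = finrank (ResidueField A) Uk ∧ (∀ w ∈ Uk, (∀ j ∈ J, w j = 0) → w = 0) ∧
      (∀ σ ∈ Gam, ∀ j i, SemilinearAut.baseAut σ ((Z j i : A) : K) = ((Z j i : A) : K)) ∧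
      (ffcdGraph J (fun j i => ((Z j i : A) : K))).map (ffcdReal K b) =
        riemannRochSpace (𝔡 - D') ∧
      ffcdGraph J (fun j i => residue A (Z j i)) = Uk := by
  classical
  obtain ⟨J, hJcard, hJsep⟩ := ffcd_exists_chart Uk
  obtain ⟨Z, hZ, hU, hUk⟩ := ttco_lattice A Uk hdim hred J hJcard hJsep
  refine ⟨J, Z, hZ, hJcard, hJsep, fun σ hσ j i => ?_, ?_, hUk.symm⟩
  · refine (ttco_lattice_smul A (hbfix σ hσ) hZ hZ hU ?_ j i).symm
    rw [smul_sub, h𝔡fix σ hσ, hfix σ hσ]
    exact hU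
  · rw [← hU]
    exact ffcd_coord_map hspan (sub_le_self _ hD')

end Lattice

/-- **OUTPUT of origin-C5a.**  `X` is the finite subgroup of classes near the origin (the Kummer
subgroup `Γ0`), `D0` the base divisor, `Uk` the coordinate space of the closed fibre
`L̃(𝔡̃ - D̃0)`. -/
structure TtcoData (Gam : Subgroup (SemilinearAut K F)) (X : AddSubgroup (Pic0 K F)) (g : ℕ)
    (𝔡 D0 : Divisor K F) {ι : Type*} [Fintype ι] [DecidableEq ι] (b : ι → F)
    (Uk : Submodule (ResidueField A) (ι → ResidueField A)) where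
  /-- the effective divisor of the class `γ + D0` -/
  D : X → Divisor K F
  D_nonneg : ∀ γ, 0 ≤ D γ
  D_deg : ∀ γ, Divisor.degree (D γ) = g
  D_class : ∀ γ (h : D γ - D0 ∈ Divisor.degZero (K := K) (F := F)),
    Pic0.mk ⟨D γ - D0, h⟩ = (γ : Pic0 K F)
  D_smul : ∀ σ ∈ Gam, ∀ γ γ' : X, (γ' : Pic0 K F) = σ • (γ : Pic0 K F) → D γ' = σ • D γ
  D_unique : ∀ (γ γ' : X) (D'' : Divisor K F), 0 ≤ D'' →
    D'' - (D γ + D γ' - D0) ∈ Divisor.principal (K := K) (F := F) → D'' = D (γ + γ')
  /-- ONE chart of the closed fibre -/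
  J : Finset ι
  J_card : (J.card : ℤ) = Divisor.degree 𝔡 + 1 - 2 * g
  J_sep : ∀ w ∈ Uk, (∀ j ∈ J, w j = 0) → w = 0
  /-- the graph coordinates -/
  Z : X → ι → ι → A
  Z_norm : ∀ γ, FfcdNorm J (Z γ)
  Z_gen : ∀ γ, (ffcdGraph J (fun j i => ((Z γ j i : A) : K))).map (ffcdReal K b) =
    riemannRochSpace (𝔡 - D γ)
  Z_spec : ∀ γ, ffcdGraph J (fun j i => residue A (Z γ j i)) = Uk
  Z_res : ∀ (γ γ' : X) (j i : ι), residue A (Z γ j i) = residue A (Z γ' j i)
  Z_smul : ∀ σ ∈ Gam, ∀ γ γ' : X, (γ' : Pic0 K F) = σ • (γ : Pic0 K F) →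
    ∀ j i, ((Z γ' j i : A) : K) = SemilinearAut.baseAut σ ((Z γ j i : A) : K)
  Z_inj : ∀ γ γ' : X, Z γ = Z γ' → γ = γ'

/-- **origin-C5a, main theorem.** -/
theorem ttco_main [Infinite K] (RR : V27RR K F g) (hdeg1 : ∀ v : Place K F, v.deg = 1)
    {Gam : Subgroup (SemilinearAut K F)} (X : AddSubgroup (Pic0 K F)) [Finite X]
    (𝔡 D0 : Divisor K F) (h𝔡 : 5 * (g : ℤ) ≤ Divisor.degree 𝔡)
    (hD0 : 0 ≤ D0) (hD0deg : Divisor.degree D0 = g) (hD0fix : ∀ σ ∈ Gam, σ • D0 = D0)
    {ι : Type*} [Fintype ι] [DecidableEq ι] {b : ι → F} (hli : LinearIndependent K b)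
    (hspan : Submodule.span K (Set.range b) = riemannRochSpace 𝔡)
    (hbfix : ∀ σ ∈ Gam, ∀ i, σ • b i = b i) (h𝔡fix : ∀ σ ∈ Gam, σ • 𝔡 = 𝔡)
    (Uk : Submodule (ResidueField A) (ι → ResidueField A))
    (hUk : (finrank (ResidueField A) Uk : ℤ) = Divisor.degree 𝔡 + 1 - 2 * g)
    (hred : ∀ D : Divisor K F, 0 ≤ D → ∀ h : Divisor.degree D = Divisor.degree D0,
      ffcdCls D D0 h ∈ X → ∀ v : ι → A,
        (∑ i, ((v i : A) : K) • b i) ∈ riemannRochSpace (𝔡 - D) →
        (fun i => residue A (v i)) ∈ Uk)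
    (hsemi : ∀ D : Divisor K F, 0 ≤ D → ∀ h : Divisor.degree D = Divisor.degree D0,
      ffcdCls D D0 h ∈ X → finrank K (riemannRochSpace D) ≤ 1) :
    Nonempty (TtcoData A Gam X g 𝔡 D0 b Uk) := by
  classical
  have hg0 : (0 : ℤ) ≤ g := Int.natCast_nonneg g
  choose D hDdeg hDnn hDcls using fun γ : X => ffcd_exists_eff RR hD0deg (γ : Pic0 K F)
  have hDX : ∀ γ : X, ffcdCls (D γ) D0 (hDdeg γ) ∈ X := fun γ => by rw [hDcls]; exact γ.2
  -- uniqueness
  have huniq : ∀ (γ : X) (D'' : Divisor K F), 0 ≤ D'' →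
      ∀ h'' : Divisor.degree D'' = Divisor.degree D0,
      ffcdCls D'' D0 h'' = (γ : Pic0 K F) → D'' = D γ := by
    intro γ D'' hD'' h'' hcls
    refine ffcd_eq_of_principal RR (hDnn γ) hD'' (hsemi (D γ) (hDnn γ) (hDdeg γ) (hDX γ)) ?_
    rw [← ffcdCls_eq_iff h'' (hDdeg γ), hcls, hDcls]
  have hdegD : ∀ γ : X, Divisor.degree (𝔡 - D γ) = Divisor.degree 𝔡 - g := fun γ => by
    rw [map_sub, hDdeg, hD0deg]
  -- the chart
  obtain ⟨J, hJcard, hJsep⟩ := ffcd_exists_chart Uk
  have hdim : ∀ γ : X, finrank K (ffcdCoord K b (𝔡 - D γ)) = finrank (ResidueField A) Uk := by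
    intro γ
    have h1 : (finrank K (ffcdCoord K b (𝔡 - D γ)) : ℤ) = Divisor.degree 𝔡 + 1 - 2 * g := by
      rw [ffcd_coord_finrank hli hspan (sub_le_self _ (hDnn γ)),
        (RR.finrank_of_lt (D := 𝔡 - D γ) (by rw [hdegD]; linarith)).1, hdegD]
      ring
    have : (finrank K (ffcdCoord K b (𝔡 - D γ)) : ℤ) = (finrank (ResidueField A) Uk : ℤ) := by
      rw [h1, hUk]
    exact_mod_cast this
  choose Z hZnorm hZU hZUk using fun γ : X =>
    ttco_lattice A Uk (hdim γ) (hred (D γ) (hDnn γ) (hDdeg γ) (hDX γ)) J hJcard hJsep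
  have hn : ∀ γ : X, FfcdNorm J (fun j i => residue A (Z γ j i)) := fun γ j i hji => by
    show residue A (Z γ j i) = 0
    rw [hZnorm γ j i hji, map_zero]
  refine ⟨{
    D := D
    D_nonneg := hDnn
    D_deg := fun γ => by rw [hDdeg, hD0deg]
    D_class := fun γ h => by rw [ffcdCls_eq_mk _ _ (hDdeg γ)]; exact hDcls γ
    D_smul := ?_
    D_unique := ?_
    J := J
    J_card := by rw [hJcard, hUk]
    J_sep := hJsep
    Z := Z
    Z_norm := hZnorm
    Z_gen := ?_
    Z_spec := fun γ => (hZUk γ).symm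
    Z_res := ?_
    Z_smul := ?_
    Z_inj := ?_ }⟩
  · -- D_smul
    intro σ hσ γ γ' hγ
    symm
    have hnn : 0 ≤ σ • D γ := by
      rw [ffcd_smul_eq_push]
      exact ffcdPush_nonneg _ (hDnn γ)
    have h'' : Divisor.degree (σ • D γ) = Divisor.degree D0 := by
      rw [SemilinearAut.degree_smul, hDdeg]
    refine huniq γ' _ hnn h'' ?_
    rw [← ffcd_smul_cls σ (hD0fix σ hσ) (hDdeg γ) h'', hDcls, hγ]
  · -- D_unique
    intro γ γ' D'' hD'' hp
    have h'' : Divisor.degree D'' = Divisor.degree D0 := by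
      have h0 := ffcd_degree_principal RR hp
      rw [map_sub, map_sub, map_add, hDdeg, hDdeg] at h0
      linarith
    refine huniq (γ + γ') D'' hD'' h'' ?_
    rw [ffcdCls_add (hDdeg γ) (hDdeg γ') h'' hp, hDcls, hDcls]
    rfl
  · -- Z_gen
    intro γ
    rw [← hZU]
    exact ffcd_coord_map hspan (sub_le_self _ (hDnn γ))
  · -- Z_res
    intro γ γ' j i
    have h2 : ffcdGraph J (fun j i => residue A (Z γ j i)) =
        ffcdGraph J (fun j i => residue A (Z γ' j i)) := by
      rw [← hZUk γ, ← hZUk γ']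
    exact congrFun (congrFun (ffcd_graph_injective (hn γ) (hn γ') h2) j) i
  · -- Z_smul
    intro σ hσ γ γ' hγ
    have hnn : 0 ≤ σ • D γ := by
      rw [ffcd_smul_eq_push]
      exact ffcdPush_nonneg _ (hDnn γ)
    have h'' : Divisor.degree (σ • D γ) = Divisor.degree D0 := by
      rw [SemilinearAut.degree_smul, hDdeg]
    have hD : D γ' = σ • D γ := by
      symm
      refine huniq γ' _ hnn h'' ?_
      rw [← ffcd_smul_cls σ (hD0fix σ hσ) (hDdeg γ) h'', hDcls, hγ]
    have h2 := hZU γ'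
    rw [hD, ← h𝔡fix σ hσ, ← smul_sub] at h2
    exact ttco_lattice_smul A (hbfix σ hσ) (hZnorm γ) (hZnorm γ') (hZU γ) h2
  · -- Z_inj
    intro γ γ' hZ
    have h1 : ffcdCoord K b (𝔡 - D γ) = ffcdCoord K b (𝔡 - D γ') := by
      rw [hZU γ, hZU γ', hZ]
    have h2 : riemannRochSpace (𝔡 - D γ) = riemannRochSpace (𝔡 - D γ') := by
      rw [← ffcd_coord_map hspan (sub_le_self _ (hDnn γ)), h1,
        ffcd_coord_map hspan (sub_le_self _ (hDnn γ'))]
    have h3 := ffkm_injective RR hdeg1 (by rw [hdegD]; linarith) (by rw [hdegD]; linarith) h2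
    have h4 : D γ = D γ' := by
      have := congrArg (fun Y => 𝔡 - Y) h3
      simpa using this
    apply Subtype.ext
    rw [← hDcls γ, ← hDcls γ']
    simp only [ffcdCls]
    congr 2
    rw [h4]

end Fermat.Agent.TT
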