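import Mathlib
import Fermat.Agent.TT.C5a.Origin
import Fermat.Agent.TT.B2.Lattice
import Fermat.Agent.FF.KMGeneral

/-!
# Program TT (S33), origin-C5a, part 2: the hypotheses `(H1)`, `(H2)` from the BRIDGE

Owner: helper1.  Namespace `Fermat.Agent.TT`, prefix `ttch`.

`ttco_main` asks `(H1)` (integral sections of `L(𝔡 - D)` reduce into `Uk`) and `(H2)`
(`l(D) ≤ 1`) for EVERY effective `D` with `[D - D0] ∈ X`.  Here they are reduced to the same
statements for GOOD divisors only (`Good` an arbitrary predicate, e.g. "no bad place, one point in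
each residue disc of `D0`"), given the BRIDGE: every class of `X` contains a good effective
divisor.

* `ttch_good` : every effective `D` with `[D - D0] ∈ X` is good;
* `ttch_main` : `TtcoData` with all `D γ` good.

Part 2 (on helper26's abstract two-valuation layer `TtbRed A O red`, `red : O → Rk`):
* `ttch_hred`  : `(H1)` from `(R-in)` for the pair `(L(𝔡 - D), Lk)` in the coordinates of a basis
  `b : ι → O` of `L(𝔡)`;
* `ttch_hsemi` : `(H2)` (`l(D) ≤ 1`) from `(R-in)` for ONE pair `(L(D - P), 0)`;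
* `ttch_origin`: `TtcoData` from the bridge in its `∀` form (`ttal_bridge_all`) and `(R-in)` for
  good divisors.
-/

set_option autoImplicit false
set_option linter.unusedSectionVars false
set_option linter.unusedVariables false
set_option linter.style.haveILetI false

noncomputable section

namespace Fermat.Agent.TT

open AlgebraicCurve IsLocalRing Module Fermat.Agent.V.RR Fermat.Agent.FF

variable {K : Type*} [Field K] (A : ValuationSubring K)
variable {F : Type*} [Field F] [Algebra K F] {g : ℕ}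

/-- **every effective divisor of a class of `X` is good.** -/
theorem ttch_good (RR : V27RR K F g) (X : AddSubgroup (Pic0 K F)) {D0 : Divisor K F}
    (hD0deg : Divisor.degree D0 = g) (Good : Divisor K F → Prop)
    (hbr : ∀ γ ∈ X, ∃ (Dγ : Divisor K F) (hdeg : Dγ - D0 ∈ Divisor.degZero (K := K) (F := F)),
      0 ≤ Dγ ∧ Pic0.mk ⟨Dγ - D0, hdeg⟩ = γ ∧ Good Dγ)
    (hsemi : ∀ D : Divisor K F, 0 ≤ D → Divisor.degree D = g → Good D →
      finrank K (riemannRochSpace D) ≤ 1)
    {D : Divisor K F} (hD : 0 ≤ D) (h : Divisor.degree D = Divisor.degree D0)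
    (hX : ffcdCls D D0 h ∈ X) : Good D := by
  obtain ⟨Dγ, hdeg, hDγ, hcls, hgood⟩ := hbr _ hX
  have hdeg' : Divisor.degree Dγ = Divisor.degree D0 := by
    have := (Divisor.mem_degZero).mp hdeg
    rw [map_sub] at this
    linarith
  rw [ffcdCls_eq_mk _ _ hdeg', ffcdCls_eq_iff hdeg' h] at hcls
  have hp : D - Dγ ∈ Divisor.principal (K := K) (F := F) := by
    have := AddSubgroup.neg_mem _ hcls
    rwa [neg_sub] at this
  have := ffcd_eq_of_principal RR hDγ hD
    (hsemi Dγ hDγ (by rw [hdeg', hD0deg]) hgood) hp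
  rw [this]
  exact hgood

/-- **origin-C5a from the bridge.** -/
theorem ttch_main [Infinite K] (RR : V27RR K F g) (hdeg1 : ∀ v : Place K F, v.deg = 1)
    {Gam : Subgroup (SemilinearAut K F)} (X : AddSubgroup (Pic0 K F)) [Finite X]
    (𝔡 D0 : Divisor K F) (h𝔡 : 5 * (g : ℤ) ≤ Divisor.degree 𝔡)
    (hD0 : 0 ≤ D0) (hD0deg : Divisor.degree D0 = g) (hD0fix : ∀ σ ∈ Gam, σ • D0 = D0)
    {ι : Type*} [Fintype ι] [DecidableEq ι] {b : ι → F} (hli : LinearIndependent K b)
    (hspan : Submodule.span K (Set.range b) = riemannRochSpace 𝔡)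
    (hbfix : ∀ σ ∈ Gam, ∀ i, σ • b i = b i) (h𝔡fix : ∀ σ ∈ Gam, σ • 𝔡 = 𝔡)
    (Uk : Submodule (ResidueField A) (ι → ResidueField A))
    (hUk : (finrank (ResidueField A) Uk : ℤ) = Divisor.degree 𝔡 + 1 - 2 * g)
    (Good : Divisor K F → Prop)
    (hbr : ∀ γ ∈ X, ∃ (Dγ : Divisor K F) (hdeg : Dγ - D0 ∈ Divisor.degZero (K := K) (F := F)),
      0 ≤ Dγ ∧ Pic0.mk ⟨Dγ - D0, hdeg⟩ = γ ∧ Good Dγ)
    (hred : ∀ D : Divisor K F, 0 ≤ D → Divisor.degree D = g → Good D → ∀ v : ι → A,
        (∑ i, ((v i : A) : K) • b i) ∈ riemannRochSpace (𝔡 - D) →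
        (fun i => residue A (v i)) ∈ Uk)
    (hsemi : ∀ D : Divisor K F, 0 ≤ D → Divisor.degree D = g → Good D →
      finrank K (riemannRochSpace D) ≤ 1) :
    ∃ dat : TtcoData A Gam X g 𝔡 D0 b Uk, ∀ γ, Good (dat.D γ) := by
  have hgood : ∀ D : Divisor K F, 0 ≤ D → ∀ h : Divisor.degree D = Divisor.degree D0,
      ffcdCls D D0 h ∈ X → Good D := fun D hD h hX =>
    ttch_good RR X hD0deg Good hbr hsemi hD h hX
  obtain ⟨dat⟩ := ttco_main A RR hdeg1 X 𝔡 D0 h𝔡 hD0 hD0deg hD0fix hli hspan hbfix h𝔡fix Uk hUk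
    (fun D hD h hX => hred D hD (by rw [h, hD0deg]) (hgood D hD h hX))
    (fun D hD h hX => hsemi D hD (by rw [h, hD0deg]) (hgood D hD h hX))
  refine ⟨dat, fun γ => ?_⟩
  have h : Divisor.degree (dat.D γ) = Divisor.degree D0 := by rw [dat.D_deg, hD0deg]
  refine hgood _ (dat.D_nonneg γ) h ?_
  rw [← ffcdCls_eq_mk _ _ h (by rw [Divisor.mem_degZero, map_sub, h, sub_self]), dat.D_class]
  exact γ.2

/-! ### Part 2: `(H1)`, `(H2)` from `(R-in)` -/

variable {A}
variable {Rk : Type*} [CommRing Rk] [Algebra (ResidueField A) Rk]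
variable {O : Subring F} {red : O →+* Rk}

/-- **`(H1)` from `(R-in)`**: if the sections of `Y ∩ O` reduce into `Lk`, then the integral
coordinate vectors of `Y` (w.r.t. `b : ι → O`) reduce into every `Uk` containing the coordinate
space of `Lk`. -/
theorem ttch_hred (h : TtbRed A O red) {ι : Type*} [Fintype ι] (b : ι → O)
    (Y : Submodule K F) (Lk : Submodule (ResidueField A) Rk)
    (hin : ∀ x : O, (x : F) ∈ Y → red x ∈ Lk)
    (Uk : Submodule (ResidueField A) (ι → ResidueField A))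
    (hUkdef : ∀ v : ι → ResidueField A, (∑ i, v i • red (b i)) ∈ Lk → v ∈ Uk)
    (v : ι → A) (hv : (∑ i, ((v i : A) : K) • ((b i : O) : F)) ∈ Y) :
    (fun i => residue A (v i)) ∈ Uk := by
  have hmem : (∑ i, ((v i : A) : K) • ((b i : O) : F)) ∈ O := by
    refine O.sum_mem fun i _ => ?_
    rw [Algebra.smul_def]
    exact O.mul_mem (h.const_mem (v i)) (b i).2
  refine hUkdef _ ?_
  rw [← ttb_coord_red h b v hmem]
  exact hin ⟨_, hmem⟩ hv

/-- **`(H2)` from `(R-in)`**: if the sections of `L(D - P) ∩ O` reduce to `0`, then `l(D) ≤ 1`. -/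
theorem ttch_hsemi (RR : V27RR K F g) (hdeg1 : ∀ v : Place K F, v.deg = 1)
    (h : TtbRed A O red) (D : Divisor K F) (P : Place K F)
    (hin : ∀ x : O, (x : F) ∈ riemannRochSpace (D - Finsupp.single P 1) → red x = 0) :
    finrank K (riemannRochSpace D) ≤ 1 := by
  by_contra hlt
  push Not at hlt
  have h1 := ffkg_finrank_le_succ RR hdeg1 D P
  have hpos : 0 < finrank K (riemannRochSpace (D - Finsupp.single P 1)) := by omega
  haveI := RR.finL (D - Finsupp.single P 1)
  obtain ⟨⟨f, hfL⟩, hf0⟩ := Module.finrank_pos_iff_exists_ne_zero.mp hpos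
  have hf : f ≠ 0 := fun hf => hf0 (Subtype.ext hf)
  obtain ⟨c, hc0, hcO, hcred⟩ := h.scale f hf
  refine hcred (hin ⟨_, hcO⟩ ?_)
  show algebraMap K F c * f ∈ riemannRochSpace (D - Finsupp.single P 1)
  rw [← Algebra.smul_def]
  exact Submodule.smul_mem _ c hfL

/-- **origin-C5a on the two-valuation layer.**  `b : ι → O` a `Gam`-fixed `K`-basis of `L(𝔡)`,
`Lk ≤ Rk` the closed space `L̃(𝔡̃ - D̃0)`, `Uk` its coordinate space; `Good` the conclusion of the
bridge (`ttal_bridge_all`: no bad place, the residue classes of `D0`). -/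
theorem ttch_origin [Infinite K] (RR : V27RR K F g) (hdeg1 : ∀ v : Place K F, v.deg = 1)
    {Gam : Subgroup (SemilinearAut K F)} (X : AddSubgroup (Pic0 K F)) [Finite X]
    (𝔡 D0 : Divisor K F) (h𝔡 : 5 * (g : ℤ) ≤ Divisor.degree 𝔡)
    (hD0 : 0 ≤ D0) (hD0deg : Divisor.degree D0 = g) (hD0fix : ∀ σ ∈ Gam, σ • D0 = D0)
    (h : TtbRed A O red) {ι : Type*} [Fintype ι] [DecidableEq ι] (b : ι → O)
    (hli : LinearIndependent K fun i => ((b i : O) : F))
    (hspan : Submodule.span K (Set.range fun i => ((b i : O) : F)) = riemannRochSpace 𝔡)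
    (hbfix : ∀ σ ∈ Gam, ∀ i, σ • ((b i : O) : F) = ((b i : O) : F))
    (h𝔡fix : ∀ σ ∈ Gam, σ • 𝔡 = 𝔡)
    (Uk : Submodule (ResidueField A) (ι → ResidueField A))
    (hUk : (finrank (ResidueField A) Uk : ℤ) = Divisor.degree 𝔡 + 1 - 2 * g)
    (Lk : Submodule (ResidueField A) Rk)
    (hUkdef : ∀ v : ι → ResidueField A, (∑ i, v i • red (b i)) ∈ Lk → v ∈ Uk)
    (Good : Divisor K F → Prop)
    (hall : ∀ D : Divisor K F, 0 ≤ D →
      ∀ hdeg : D - D0 ∈ Divisor.degZero (K := K) (F := F), Pic0.mk ⟨D - D0, hdeg⟩ ∈ X → Good D)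
    (hin1 : ∀ D : Divisor K F, 0 ≤ D → Divisor.degree D = g → Good D →
      ∀ x : O, (x : F) ∈ riemannRochSpace (𝔡 - D) → red x ∈ Lk)
    (hin2 : ∀ D : Divisor K F, 0 ≤ D → Divisor.degree D = g → Good D →
      ∃ P : Place K F, ∀ x : O, (x : F) ∈ riemannRochSpace (D - Finsupp.single P 1) → red x = 0) :
    ∃ dat : TtcoData A Gam X g 𝔡 D0 (fun i => ((b i : O) : F)) Uk, ∀ γ, Good (dat.D γ) := by
  have hgood : ∀ D : Divisor K F, 0 ≤ D → ∀ hd : Divisor.degree D = Divisor.degree D0,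
      ffcdCls D D0 hd ∈ X → Good D := fun D hD hd hX =>
    hall D hD (by rw [Divisor.mem_degZero, map_sub, hd, sub_self]) hX
  obtain ⟨dat⟩ := ttco_main A RR hdeg1 X 𝔡 D0 h𝔡 hD0 hD0deg hD0fix hli hspan hbfix h𝔡fix Uk hUk
    (fun D hD hd hX v hv => ttch_hred h b _ Lk
      (hin1 D hD (by rw [hd, hD0deg]) (hgood D hD hd hX)) Uk hUkdef v hv)
    (fun D hD hd hX => by
      obtain ⟨P, hP⟩ := hin2 D hD (by rw [hd, hD0deg]) (hgood D hD hd hX)
      exact ttch_hsemi RR hdeg1 h D P hP)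
  refine ⟨dat, fun γ => ?_⟩
  have hd : Divisor.degree (dat.D γ) = Divisor.degree D0 := by rw [dat.D_deg, hD0deg]
  refine hgood _ (dat.D_nonneg γ) hd ?_
  rw [← ffcdCls_eq_mk _ _ hd (by rw [Divisor.mem_degZero, map_sub, hd, sub_self]), dat.D_class]
  exact γ.2

end Fermat.Agent.TT
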